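import Fermat.Agent.S21.InjMain
import Fermat.Agent.FF.S20Interface

/-!
# Item 76 deliverable: `PeriodStatement N`
-/

set_option autoImplicit false

namespace Fermat.Agent.S21

/-- **Item 76**: `periodHomPair` is injective and its range consists of parabolic
homomorphisms. -/
theorem periodStatement (N : ℕ) [NeZero N] : Fermat.Agent.FF.PeriodStatement N :=
  ⟨periodHomPair_injective N, range_periodHomPair_le⟩

/-- the upper bound `dim S₂(Γ₀(N)) ≤ g` -/
theorem finrank_cuspForm_le_genusFormula (N : ℕ) [NeZero N] :
    (Module.finrank ℂ (CuspForm (CongruenceSubgroup.Gamma0 N) 2) : ℚ)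
      ≤ ModularCurve.genusFormula N :=
  Fermat.Agent.FF.finrank_cuspForm_le N (periodStatement N)

end Fermat.Agent.S21
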