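import Mathlib
import Fermat.Statements.S21
import Fermat.Agent.S22.Period

/-!
# S21 item 76a: the equivariant primitive of a weight 2 cusp form, linearity of the period map
-/

set_option autoImplicit false

namespace Fermat.Agent.S21

open UpperHalfPlane hiding I
open Real Complex Function Filter Topology Matrix.SpecialLinearGroup CongruenceSubgroup
open scoped Manifold MatrixGroups ModularForm Pointwise
open Derivative
open Fermat.Agent.S22

noncomputable section

variable (N : ℕ) [NeZero N]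

/-- The primitive `∫_{i∞}^τ f` of a weight 2 cusp form, linear in `f`. -/
def prim : CuspForm (Gamma0 N) 2 →ₗ[ℂ] (ℍ → ℂ) :=
  (2 * π * I : ℂ)⁻¹ • eichlerIntegral N 2

variable {N}

theorem prim_apply (f : CuspForm (Gamma0 N) 2) (τ : ℍ) :
    prim N f τ = (2 * π * I : ℂ)⁻¹ * eichlerIntegral N 2 f τ := rfl

theorem prim_eq (f : CuspForm (Gamma0 N) 2) :
    prim N f = (2 * π * I : ℂ)⁻¹ • eichlerIntegral N 2 f := rfl

theorem mdiff_prim (f : CuspForm (Gamma0 N) 2) : MDiff (prim N f) :=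
  (mdiff_eichlerIntegral f).const_smul (2 * π * I : ℂ)⁻¹

theorem two_pi_I_ne_zero' : (2 * π * I : ℂ) ≠ 0 := by
  simp [Real.pi_ne_zero, Complex.I_ne_zero]

theorem differentiableAt_comp_ofComplex {F : ℍ → ℂ} (hF : MDiff F) (τ : ℍ) :
    DifferentiableAt ℂ (F ∘ ofComplex) (τ : ℂ) :=
  (UpperHalfPlane.mdifferentiable_iff.mp hF).differentiableAt
    (UpperHalfPlane.isOpen_upperHalfPlaneSet.mem_nhds τ.im_pos)

theorem deriv_eichlerIntegral (f : CuspForm (Gamma0 N) 2) (τ : ℍ) :
    deriv (eichlerIntegral N 2 f ∘ ofComplex) (τ : ℂ) = (2 * π * I : ℂ) * f τ := by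
  have h := congrFun (Dn_eichlerIntegral f) τ
  have h1 : ((2 : ℤ) - 1).toNat = 1 := by norm_num
  rw [h1, Dn_one] at h
  unfold normalizedDerivOfComplex at h
  rw [← h, ← mul_assoc, mul_inv_cancel₀ two_pi_I_ne_zero', one_mul]

theorem hasDerivAt_prim (f : CuspForm (Gamma0 N) 2) (τ : ℍ) :
    HasDerivAt (prim N f ∘ ofComplex) (f τ) (τ : ℂ) := by
  have h1 : HasDerivAt (eichlerIntegral N 2 f ∘ ofComplex) ((2 * π * I : ℂ) * f τ) (τ : ℂ) := by
    rw [← deriv_eichlerIntegral]
    exact (differentiableAt_comp_ofComplex (mdiff_eichlerIntegral f) τ).hasDerivAt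
  have h2 := h1.const_mul (2 * π * I : ℂ)⁻¹
  rw [← mul_assoc, inv_mul_cancel₀ two_pi_I_ne_zero', one_mul] at h2
  exact h2

theorem tendsto_prim (f : CuspForm (Gamma0 N) 2) : Tendsto (prim N f) atImInfty (𝓝 0) := by
  have h : Tendsto (eichlerIntegral N 2 f) atImInfty (𝓝 0) := isZeroAtImInfty_eichlerIntegral f
  have := h.const_mul (2 * π * I : ℂ)⁻¹
  rw [mul_zero] at this
  exact this

/-- weight `0` slash action of `SL(2, ℤ)` is composition -/
theorem slash_zero_apply (F : ℍ → ℂ) (γ : SL(2, ℤ)) (z : ℍ) :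
    (F ∣[(0 : ℤ)] (mapGL ℝ γ)) z = F (γ • z) := by
  have h1 : (F ∣[(0 : ℤ)] (mapGL ℝ γ)) = F ∣[(0 : ℤ)] γ := (ModularForm.SL_slash (f := F) (k := 0) γ).symm
  rw [h1, ModularForm.SL_slash_apply, neg_zero, zpow_zero, mul_one]

theorem isEquivariantPrimitive_prim (f : CuspForm (Gamma0 N) 2) :
    ModularCurve.Period.IsEquivariantPrimitive (Gamma0 N) (prim N f) := by
  intro γ
  obtain ⟨P, hPdeg, hP⟩ := eichlerIntegral_poly (le_refl 2) f (γ : SL(2, ℤ)) γ.2
  have hdeg : P.natDegree = 0 := by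
    have : ((2 : ℤ) - 2).toNat = 0 := by norm_num
    omega
  obtain ⟨c, hc⟩ : ∃ c, P = Polynomial.C c := ⟨_, Polynomial.eq_C_of_natDegree_eq_zero hdeg⟩
  refine ⟨(2 * π * I : ℂ)⁻¹ * c, fun z => ?_⟩
  have h := hP z
  rw [hc, Polynomial.eval_C, show ((2 : ℤ) - 2) = 0 by norm_num, slash_zero_apply] at h
  rw [prim_apply, prim_apply, ← mul_sub, h]

/-- the translates of the primitive have limits at `i∞` -/
theorem exists_tendsto_prim_smul (f : CuspForm (Gamma0 N) 2) (δ : SL(2, ℤ)) :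
    ∃ L : ℂ, Tendsto (fun w : ℍ => prim N f (δ • w)) atImInfty (𝓝 L) := by
  set F := eichlerIntegral N 2 f with hFdef
  have hF : MDiff F := mdiff_eichlerIntegral f
  have hDF : Dn 1 F = f := by
    have := Dn_eichlerIntegral f
    have h1 : ((2 : ℤ) - 1).toNat = 1 := by norm_num
    rwa [h1] at this
  obtain ⟨M, hM0, hM⟩ := Subgroup.IsArithmetic.exists_nat_mem_strictPeriods_conj (Gamma0GL N)
  have hper := hM δ⁻¹
  rw [map_inv] at hper
  have hM0' : (0 : ℝ) < (M : ℝ) := by exact_mod_cast hM0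
  let fg := CuspForm.translate f (mapGL ℝ δ)
  have hfgcoe : ⇑fg = ⇑f ∣[(2 : ℤ)] (mapGL ℝ δ) := rfl
  have hfgper : ∀ τ : ℍ, fg (((M : ℝ)) +ᵥ τ) = fg τ := fun τ =>
    SlashInvariantForm.vAdd_apply_of_mem_strictPeriods fg τ hper
  have hfgz : IsZeroAtImInfty (⇑fg) := by
    have h1 := CuspFormClass.zero_at_infty_slash f δ
    rw [ModularForm.SL_slash] at h1
    rw [hfgcoe]
    exact h1
  have hfgmd : MDiff (⇑fg) := CuspFormClass.holo fg
  obtain ⟨E, hE, -, hEz, hDE⟩ := exists_eichler hM0' 1 hfgmd hfgper hfgz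
  have hGmd : MDiff (F ∣[(0 : ℤ)] (mapGL ℝ δ)) := hF.slash _ _
  have hbol : Dn 1 (F ∣[(0 : ℤ)] (mapGL ℝ δ)) = (Dn 1 F) ∣[(2 : ℤ)] (mapGL ℝ δ) := by
    have := bol_mapGL 1 hF δ
    norm_num at this
    exact this
  have hD0 : Dn 1 (F ∣[(0 : ℤ)] (mapGL ℝ δ) - E) = 0 := by
    rw [Dn_sub 1 hGmd hE, hDE, hbol, hDF, hfgcoe, sub_self]
  obtain ⟨P, hPdeg, hP⟩ := exists_polynomial_of_Dn_eq_zero (hGmd.sub hE) hD0
  have hdeg : P.natDegree = 0 := by
    by_cases hP0 : P = 0
    · simp [hP0]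
    · rw [Polynomial.degree_eq_natDegree hP0] at hPdeg
      have : P.natDegree < 1 := by exact_mod_cast hPdeg
      omega
  obtain ⟨c, hc⟩ : ∃ c, P = Polynomial.C c := ⟨_, Polynomial.eq_C_of_natDegree_eq_zero hdeg⟩
  refine ⟨(2 * π * I : ℂ)⁻¹ * c, ?_⟩
  have hEq : (fun w : ℍ => prim N f (δ • w)) = fun w => (2 * π * I : ℂ)⁻¹ * (E w + c) := by
    ext w
    have h := hP w
    rw [hc, Polynomial.eval_C, Pi.sub_apply, slash_zero_apply] at h
    rw [prim_apply, ← hFdef]
    congr 1
    linear_combination h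
  rw [hEq]
  have hE0 : Tendsto E atImInfty (𝓝 0) := hEz
  have := (hE0.add_const c).const_mul (2 * π * I : ℂ)⁻¹
  rw [zero_add] at this
  exact this

/-- `prim N f` is an equivariant primitive of `f` in the sense of the prelude. -/
theorem hasEquivariantPrimitive_prim (f : CuspForm (Gamma0 N) 2) :
    ModularCurve.HasEquivariantPrimitive N f (prim N f) :=
  ⟨hasDerivAt_prim f, tendsto_prim f, isEquivariantPrimitive_prim f, exists_tendsto_prim_smul f⟩

/-- two primitives of the same function on `ℍ` differ by a constant -/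
theorem sub_eq_sub_of_hasDerivAt {F G g : ℍ → ℂ}
    (hF : ∀ τ : ℍ, HasDerivAt (F ∘ ofComplex) (g τ) (τ : ℂ))
    (hG : ∀ τ : ℍ, HasDerivAt (G ∘ ofComplex) (g τ) (τ : ℂ)) (z w : ℍ) :
    F z - G z = F w - G w := by
  have hD : ∀ x ∈ {x : ℂ | 0 < x.im},
      HasDerivAt (fun x => (F ∘ ofComplex) x - (G ∘ ofComplex) x) 0 x := by
    intro x hx
    have h1 := hF ⟨x, hx⟩
    have h2 := hG ⟨x, hx⟩
    have := h1.sub h2
    rw [sub_self] at this
    exact this
  have hconst := IsOpen.is_const_of_deriv_eq_zero (𝕜 := ℂ)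
    (f := fun x => (F ∘ ofComplex) x - (G ∘ ofComplex) x)
    UpperHalfPlane.isOpen_upperHalfPlaneSet
    (convex_halfSpace_im_gt 0).isPreconnected
    (fun x hx => (hD x hx).differentiableAt.differentiableWithinAt)
    (fun x hx => (hD x hx).deriv) z.im_pos w.im_pos
  simpa using hconst

/-- the period map of the prelude is the period homomorphism of `prim` -/
theorem periodMap_eq (f : CuspForm (Gamma0 N) 2) :
    ModularCurve.periodMap N f = (isEquivariantPrimitive_prim f).periodHom := by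
  obtain ⟨F₀, h₀, h⟩ := ModularCurve.periodMap_def N f (hasEquivariantPrimitive_prim f)
  rw [h]
  refine AddMonoidHom.ext fun γ => ?_
  change F₀ (((Additive.toMul γ : Gamma0 N) : SL(2, ℤ)) • UpperHalfPlane.I) - F₀ UpperHalfPlane.I
    = prim N f (((Additive.toMul γ : Gamma0 N) : SL(2, ℤ)) • UpperHalfPlane.I)
      - prim N f UpperHalfPlane.I
  have := sub_eq_sub_of_hasDerivAt h₀.1 (hasDerivAt_prim f)
    (((Additive.toMul γ : Gamma0 N) : SL(2, ℤ)) • UpperHalfPlane.I) UpperHalfPlane.I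
  linear_combination this

theorem periodMap_apply (f : CuspForm (Gamma0 N) 2) (γ : Gamma0 N) (z : ℍ) :
    ModularCurve.periodMap N f (Additive.ofMul γ)
      = prim N f ((γ : SL(2, ℤ)) • z) - prim N f z := by
  rw [periodMap_eq, ModularCurve.Period.IsEquivariantPrimitive.periodHom_apply,
    ← (isEquivariantPrimitive_prim f).sub_eq_period γ z]

variable (N) in
/-- the period map as a linear map -/
def periodMapLin : CuspForm (Gamma0 N) 2 →ₗ[ℂ] (Additive (Gamma0 N) →+ ℂ) where
  toFun f := ModularCurve.periodMap N f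
  map_add' f g := by
    refine AddMonoidHom.ext fun γ => ?_
    change ModularCurve.periodMap N (f + g) (Additive.ofMul (Additive.toMul γ))
      = ModularCurve.periodMap N f (Additive.ofMul (Additive.toMul γ))
        + ModularCurve.periodMap N g (Additive.ofMul (Additive.toMul γ))
    rw [periodMap_apply _ _ UpperHalfPlane.I, periodMap_apply _ _ UpperHalfPlane.I,
      periodMap_apply _ _ UpperHalfPlane.I, map_add]
    simp only [Pi.add_apply]
    ring
  map_smul' c f := by
    refine AddMonoidHom.ext fun γ => ?_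
    change ModularCurve.periodMap N (c • f) (Additive.ofMul (Additive.toMul γ))
      = c • ModularCurve.periodMap N f (Additive.ofMul (Additive.toMul γ))
    rw [periodMap_apply _ _ UpperHalfPlane.I, periodMap_apply _ _ UpperHalfPlane.I, map_smul]
    simp only [Pi.smul_apply, smul_eq_mul]
    ring

@[simp] theorem periodMapLin_apply (f : CuspForm (Gamma0 N) 2) :
    periodMapLin N f = ModularCurve.periodMap N f := rfl

/-- **Item 76a.** -/
theorem existsPeriodMapLinear : ModularCurve.ExistsPeriodMapLinear N :=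
  ⟨periodMapLin N, fun _ => rfl⟩

end

end Fermat.Agent.S21
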