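import Mathlib
import Fermat.Agent.S21.Primitive

/-!
# S21 item 76b: the period map takes values in the parabolic homomorphisms
-/

set_option autoImplicit false

namespace Fermat.Agent.S21

open UpperHalfPlane hiding I
open Complex Function Filter Topology Matrix.SpecialLinearGroup CongruenceSubgroup
open scoped Manifold MatrixGroups ModularForm

section Group

theorem exists_sl_col (p q : ℤ) (h : IsCoprime p q) :
    ∃ δ : SL(2, ℤ), δ 0 0 = p ∧ δ 1 0 = q := by
  obtain ⟨u, v, huv⟩ := h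
  exact ⟨⟨!![p, -v; q, u], by rw [Matrix.det_fin_two_of]; linear_combination huv⟩, rfl, rfl⟩

theorem conj_entry (γ δ : SL(2, ℤ)) :
    (δ⁻¹ * γ * δ) 1 0 =
      γ 1 0 * δ 0 0 ^ 2 + (γ 1 1 - γ 0 0) * δ 0 0 * δ 1 0 - γ 0 1 * δ 1 0 ^ 2 := by
  simp [Matrix.SpecialLinearGroup.coe_inv, Matrix.adjugate_fin_two,
    Matrix.mul_apply, Fin.sum_univ_two, Matrix.vecMul, dotProduct]
  ring

/-- a primitive isotropic vector of the quadratic form attached to a parabolic element -/
theorem exists_coprime_isotropic (a b c d : ℤ) (hdet : a * d - b * c = 1)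
    (htr : (a + d) ^ 2 = 4) :
    ∃ p q : ℤ, IsCoprime p q ∧ c * p ^ 2 + (d - a) * p * q - b * q ^ 2 = 0 := by
  by_cases hc : c = 0
  · exact ⟨1, 0, isCoprime_one_left, by rw [hc]; ring⟩
  · obtain ⟨g, hg⟩ : ∃ g : ℤ, g = (Int.gcd (a - d) (2 * c) : ℤ) := ⟨_, rfl⟩
    have hgpos : 0 < Int.gcd (a - d) (2 * c) :=
      Int.gcd_pos_of_ne_zero_right _ (mul_ne_zero two_ne_zero hc)
    have hg0 : g ≠ 0 := by rw [hg]; exact_mod_cast hgpos.ne'
    obtain ⟨p, hp⟩ : g ∣ a - d := by rw [hg]; exact Int.gcd_dvd_left _ _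
    obtain ⟨q, hq⟩ : g ∣ 2 * c := by rw [hg]; exact Int.gcd_dvd_right _ _
    have hcop : IsCoprime p q := by
      rw [Int.isCoprime_iff_gcd_eq_one]
      have := Int.gcd_div_gcd_div_gcd hgpos
      rw [← hg] at this
      have hp' : (a - d) / g = p := by rw [hp]; exact Int.mul_ediv_cancel_left p hg0
      have hq' : (2 * c) / g = q := by rw [hq]; exact Int.mul_ediv_cancel_left q hg0
      rwa [hp', hq'] at this
    refine ⟨p, q, hcop, ?_⟩
    have h1 : g ^ 2 * (c * p ^ 2 + (d - a) * p * q - b * q ^ 2) = 0 := by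
      have : g ^ 2 * (c * p ^ 2 + (d - a) * p * q - b * q ^ 2)
          = c * (g * p) ^ 2 + (d - a) * (g * p) * (g * q) - b * (g * q) ^ 2 := by ring
      rw [this, ← hp, ← hq]
      linear_combination (-c) * htr + (4 * c) * hdet
    rcases mul_eq_zero.mp h1 with h | h
    · exact absurd (pow_eq_zero_iff (two_ne_zero)|>.mp h) hg0
    · exact h

/-- a parabolic element (or `±1`) of `SL(2, ℤ)` fixes a cusp -/
theorem exists_conj_lower_left_eq_zero (γ : SL(2, ℤ))
    (htr : (γ : Matrix (Fin 2) (Fin 2) ℤ).trace ^ 2 = 4) :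
    ∃ δ : SL(2, ℤ), (δ⁻¹ * γ * δ) 1 0 = 0 := by
  have hdet : γ 0 0 * γ 1 1 - γ 0 1 * γ 1 0 = 1 := by
    have := γ.det_coe
    rwa [Matrix.det_fin_two] at this
  rw [Matrix.trace_fin_two] at htr
  obtain ⟨p, q, hcop, hpq⟩ := exists_coprime_isotropic (γ 0 0) (γ 0 1) (γ 1 0) (γ 1 1) hdet htr
  obtain ⟨δ, h1, h2⟩ := exists_sl_col p q hcop
  refine ⟨δ, ?_⟩
  rw [conj_entry, h1, h2]
  linear_combination hpq

end Group

variable {N : ℕ} [NeZero N]

theorem tendsto_T_zpow_smul (n : ℤ) :
    Tendsto (fun w : ℍ => ModularGroup.T ^ n • w) atImInfty atImInfty := by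
  rw [atImInfty, tendsto_comap_iff]
  have : (UpperHalfPlane.im ∘ fun w : ℍ => ModularGroup.T ^ n • w) = UpperHalfPlane.im := by
    ext w
    exact ModularGroup.im_T_zpow_smul w n
  rw [this]
  exact tendsto_comap

/-- **Item 76b.** The period map takes values in the parabolic homomorphisms. -/
theorem periodMap_mem_parabolicHoms (f : CuspForm (Gamma0 N) 2) :
    ModularCurve.periodMap N f ∈ ModularCurve.Period.parabolicHoms ℂ (Gamma0 N) ℂ := by
  rw [ModularCurve.Period.mem_parabolicHoms_iff]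
  intro γ hγ
  obtain ⟨δ, hδ⟩ := exists_conj_lower_left_eq_zero (γ : SL(2, ℤ)) hγ
  obtain ⟨n, hn⟩ := ModularGroup.exists_eq_T_zpow_of_c_eq_zero hδ
  obtain ⟨L, hL⟩ := exists_tendsto_prim_smul f δ
  have hconst : ∀ w : ℍ, ModularCurve.periodMap N f (Additive.ofMul γ)
      = prim N f (δ • (ModularGroup.T ^ n • w)) - prim N f (δ • w) := by
    intro w
    have key : (γ : SL(2, ℤ)) • (δ • w) = δ • (ModularGroup.T ^ n • w) := by
      rw [← hn w, ← mul_smul, ← mul_smul]
      congr 1
      group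
    rw [periodMap_apply f γ (δ • w), key]
  have h1 : Tendsto (fun w : ℍ => prim N f (δ • (ModularGroup.T ^ n • w))) atImInfty (𝓝 L) :=
    hL.comp (tendsto_T_zpow_smul n)
  have h2 := h1.sub hL
  rw [sub_self] at h2
  have h3 : Tendsto (fun _ : ℍ => ModularCurve.periodMap N f (Additive.ofMul γ)) atImInfty
      (𝓝 0) := by
    refine h2.congr ?_
    intro w
    exact (hconst w).symm
  exact tendsto_nhds_unique tendsto_const_nhds h3

/-- the range of `periodHomPair` consists of parabolic homomorphisms -/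
theorem range_periodHomPair_le :
    LinearMap.range (ModularCurve.periodHomPair N)
      ≤ ModularCurve.Period.parabolicHoms ℂ (Gamma0 N) ℂ := by
  obtain ⟨pml, hpml, hdef⟩ := ModularCurve.periodHomPair_def N existsPeriodMapLinear
  rintro _ ⟨⟨f, g⟩, rfl⟩
  rw [hdef]
  simp only [LinearMap.coprod_apply, LinearMap.comp_apply, LinearMap.add_apply,
    LinearMap.sub_apply, LinearMap.id_apply, hpml]
  have hf := periodMap_mem_parabolicHoms f
  have hg := periodMap_mem_parabolicHoms g
  exact add_mem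
    (add_mem hf (ModularCurve.Period.charInvolution_mem_parabolicHoms N ℂ ℂ hf))
    (sub_mem hg (ModularCurve.Period.charInvolution_mem_parabolicHoms N ℂ ℂ hg))

end Fermat.Agent.S21
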