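import Mathlib
import Fermat.Agent.S21.Parabolic
import Fermat.Agent.FF.ParabolicBound
import Fermat.Agent.Lib.CuspFormFinDim

/-!
# S21 item 77: assembly of the Eichler–Shimura statement

From the injectivity of `periodHomPair` (item 76c) and the dimension formula (S20).
-/

set_option autoImplicit false
set_option linter.style.haveILetI false

namespace Fermat.Agent.S21

open CongruenceSubgroup
open scoped MatrixGroups

variable (N : ℕ) [NeZero N]

theorem eichlerShimura_of_injective_of_finrank
    (hinj : Function.Injective (ModularCurve.periodHomPair N))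
    (hdim : (Module.finrank ℂ (CuspForm (CongruenceSubgroup.Gamma0 N) 2) : ℚ)
      = ModularCurve.genusFormula N) :
    Function.Injective (ModularCurve.periodHomPair N)
      ∧ LinearMap.range (ModularCurve.periodHomPair N)
          = ModularCurve.Period.parabolicHoms ℂ (CongruenceSubgroup.Gamma0 N) ℂ := by
  refine ⟨hinj, ?_⟩
  obtain ⟨hfin, hbound⟩ := Fermat.Agent.FF.parabolicHoms_bound N
  haveI := hfin
  haveI : FiniteDimensional ℂ (CuspForm (CongruenceSubgroup.Gamma0 N) 2) :=
    Fermat.Agent.Lib.CuspFormFinDim.finiteDimensional N 2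
  apply Submodule.eq_of_le_of_finrank_le (range_periodHomPair_le (N := N))
  rw [LinearMap.finrank_range_of_inj hinj, Module.finrank_prod]
  have h1 : (Module.finrank ℂ (ModularCurve.Period.parabolicHoms ℂ (Gamma0 N) ℂ) : ℚ)
      ≤ ((Module.finrank ℂ (CuspForm (CongruenceSubgroup.Gamma0 N) 2)
        + Module.finrank ℂ (CuspForm (CongruenceSubgroup.Gamma0 N) 2) : ℕ) : ℚ) := by
    push_cast
    rw [hdim]
    linarith
  exact_mod_cast h1

end Fermat.Agent.S21
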