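import Fermat.Agent.S21.InjStar
import Fermat.Agent.S21.Parabolic

/-!
# S21 item 76c, part 3: injectivity of `periodHomPair`

`periodHomPair_injective : Function.Injective (ModularCurve.periodHomPair N)`.

If `periodHomPair (f, g) = 0` then, with `F = prim f`, `G = prim g`, `A = F + G`,
`B = (F - G)^c`, the function `A + conj B` is `Γ₀(N)`-invariant.  Hence the real parts of
`A + B` and `-i (A - B)` are `Γ₀(N)`-invariant, both functions are constant by the maximum modulus
principle `CuspNice.eq_const`, and `f + g = 0 = f - g`.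
-/

set_option autoImplicit false

open UpperHalfPlane hiding I
open Complex Filter Topology Function Matrix.SpecialLinearGroup CongruenceSubgroup
open scoped MatrixGroups Manifold Real ComplexConjugate ModularForm

namespace Fermat.Agent.S21

variable {N : ℕ} [NeZero N]

theorem coe_conj_T_pow (N : ℕ) (δ : SL(2, ℤ)) :
    ((δ * ModularGroup.T ^ (N : ℤ) * δ⁻¹ : SL(2, ℤ)) : Matrix (Fin 2) (Fin 2) ℤ)
      = (δ : Matrix (Fin 2) (Fin 2) ℤ) * !![1, (N : ℤ); 0, 1]
        * Matrix.adjugate (δ : Matrix (Fin 2) (Fin 2) ℤ) := by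
  rw [Matrix.SpecialLinearGroup.coe_mul, Matrix.SpecialLinearGroup.coe_mul,
    ModularGroup.coe_T_zpow, Matrix.SpecialLinearGroup.coe_inv]

/-- `δ Tᴺ δ⁻¹ ∈ Γ₀(N)` -/
theorem conj_T_pow_mem_Gamma0 (N : ℕ) (δ : SL(2, ℤ)) :
    δ * ModularGroup.T ^ (N : ℤ) * δ⁻¹ ∈ Gamma0 N := by
  rw [Gamma0_mem]
  have h : ((δ * ModularGroup.T ^ (N : ℤ) * δ⁻¹ : SL(2, ℤ)) : Matrix (Fin 2) (Fin 2) ℤ) 1 0
      = -(N : ℤ) * δ 1 0 ^ 2 := by
    rw [coe_conj_T_pow]
    simp [Matrix.adjugate_fin_two, Matrix.mul_apply, Fin.sum_univ_two]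
    ring
  rw [h]
  simp

theorem trace_conj_T_pow (N : ℕ) (δ : SL(2, ℤ)) :
    ((δ * ModularGroup.T ^ (N : ℤ) * δ⁻¹ : SL(2, ℤ)) : Matrix (Fin 2) (Fin 2) ℤ).trace ^ 2 = 4 := by
  have h : ((δ * ModularGroup.T ^ (N : ℤ) * δ⁻¹ : SL(2, ℤ)) : Matrix (Fin 2) (Fin 2) ℤ).trace
      = 2 := by
    rw [coe_conj_T_pow, Matrix.trace_fin_two]
    have hdet := δ.det_coe
    rw [Matrix.det_fin_two] at hdet
    simp [Matrix.adjugate_fin_two, Matrix.mul_apply, Fin.sum_univ_two]
    linear_combination 2 * hdet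
  rw [h]
  norm_num

/-- the primitives of weight `2` cusp forms on `Γ₀(N)` are `CuspNice` of period `N` -/
theorem cuspNice_prim (f : CuspForm (Gamma0 N) 2) : CuspNice N (prim N f) where
  mdiff := mdiff_prim f
  periodic δ τ := by
    have hpar := periodMap_mem_parabolicHoms f
    rw [ModularCurve.Period.mem_parabolicHoms_iff] at hpar
    have h0 := hpar ⟨_, conj_T_pow_mem_Gamma0 N δ⟩ (trace_conj_T_pow N δ)
    rw [periodMap_apply f _ (δ • τ)] at h0
    have key : (δ * ModularGroup.T ^ (N : ℤ) * δ⁻¹) • (δ • τ) = δ • (((N : ℝ)) +ᵥ τ) := by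
      rw [← mul_smul, inv_mul_cancel_right, mul_smul, UpperHalfPlane.modular_T_zpow_smul]
      simp
    simp only at h0
    rw [key] at h0
    exact sub_eq_zero.mp h0
  bdd δ := by
    obtain ⟨L, hL⟩ := exists_tendsto_prim_smul f δ
    exact hL.isBigO_one ℝ

theorem eq_zero_of_prim_const (f : CuspForm (Gamma0 N) 2) (c : ℂ)
    (h : ∀ τ : ℍ, prim N f τ = c) : f = 0 := by
  ext τ
  have h1 := hasDerivAt_prim f τ
  have h2 : (prim N f ∘ ofComplex) =ᶠ[𝓝 (τ : ℂ)] fun _ => c := by
    filter_upwards with w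
    exact h _
  have h3 := (h1.congr_of_eventuallyEq h2.symm).unique (hasDerivAt_const (τ : ℂ) c)
  simpa using h3

/-- the value of the period map on the conjugate `jConj γ` -/
theorem periodMap_jConj (f : CuspForm (Gamma0 N) 2) (γ : Gamma0 N) (z : ℍ) :
    ModularCurve.periodMap N f (Additive.ofMul (ModularCurve.Period.jConjGamma0 N γ))
      = conj (starFun (prim N f) ((γ : SL(2, ℤ)) • z) - starFun (prim N f) z) := by
  rw [periodMap_apply f _ (UpperHalfPlane.J • z), ModularCurve.Period.jConjGamma0_coe,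
    ← J_smul_smul, map_sub, starFun_apply, starFun_apply, Complex.conj_conj, Complex.conj_conj]

/-- **Item 76c.** The pair of period maps is injective. -/
theorem periodHomPair_injective (N : ℕ) [NeZero N] :
    Function.Injective (ModularCurve.periodHomPair N) := by
  obtain ⟨pml, hpml, hdef⟩ := ModularCurve.periodHomPair_def N existsPeriodMapLinear
  rw [injective_iff_map_eq_zero]
  rintro ⟨f, g⟩ hfg
  rw [hdef] at hfg
  simp only [LinearMap.coprod_apply, LinearMap.comp_apply, LinearMap.add_apply,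
    LinearMap.sub_apply, LinearMap.id_apply, hpml] at hfg
  set F := prim N f with hF
  set G := prim N g with hG
  -- the invariance of `A + conj B`
  have hinv : ∀ (γ : Gamma0 N) (z : ℍ),
      ((F + G) ((γ : SL(2, ℤ)) • z) - (F + G) z)
        + conj (starFun (F - G) ((γ : SL(2, ℤ)) • z) - starFun (F - G) z) = 0 := by
    intro γ z
    have h1 := congrArg (fun φ : Additive (Gamma0 N) →+ ℂ => φ (Additive.ofMul γ)) hfg
    simp only [AddMonoidHom.add_apply, AddMonoidHom.sub_apply, AddMonoidHom.zero_apply,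
      ModularCurve.Period.charInvolution_apply, toMul_ofMul] at h1
    rw [periodMap_apply f γ z, periodMap_apply g γ z, periodMap_jConj f γ z,
      periodMap_jConj g γ z] at h1
    rw [starFun_sub]
    simp only [Pi.add_apply, Pi.sub_apply, map_sub] at h1 ⊢
    linear_combination h1
  have hA : CuspNice N (F + G) := (cuspNice_prim f).add (cuspNice_prim g)
  have hB : CuspNice N (starFun (F - G)) := ((cuspNice_prim f).sub (cuspNice_prim g)).starFun
  have hNpos : 0 < N := Nat.pos_of_ne_zero (NeZero.ne N)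
  -- first function: `A + B`
  have h1 : CuspNice N ((F + G) + starFun (F - G)) := hA.add hB
  obtain ⟨c1, hc1⟩ := h1.eq_const (Gamma0 N) hNpos (by
    intro γ hγ τ
    have := congrArg Complex.re (hinv ⟨γ, hγ⟩ τ)
    simp only [Pi.add_apply, Complex.add_re, Complex.sub_re, Complex.conj_re,
      Complex.zero_re] at this ⊢
    linarith)
  -- second function: `-i (A - B)`
  have h2 : CuspNice N (fun τ => (-I) * ((F + G) - starFun (F - G)) τ) :=
    (hA.sub hB).const_mul (-I)
  obtain ⟨c2, hc2⟩ := h2.eq_const (Gamma0 N) hNpos (by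
    intro γ hγ τ
    have := congrArg Complex.im (hinv ⟨γ, hγ⟩ τ)
    simp only [Pi.add_apply, Complex.add_im, Complex.sub_im, Complex.conj_im,
      Complex.zero_im] at this
    simp only [Pi.add_apply, Pi.sub_apply, Complex.mul_re, Complex.neg_re, Complex.I_re,
      Complex.neg_im, Complex.I_im, Complex.sub_re, Complex.add_re, Complex.sub_im,
      Complex.add_im]
    linarith)
  -- `A` and `B` are constant
  have hAc : ∀ τ, (F + G) τ = (c1 + I * c2) / 2 := by
    intro τ
    have e1 := hc1 τ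
    have e2 := hc2 τ
    simp only [Pi.add_apply, Pi.sub_apply] at e1 e2 ⊢
    have hI : I * I = -1 := Complex.I_mul_I
    linear_combination (1 / 2 : ℂ) * e1 + (I / 2) * e2 + (1 / 2 : ℂ) * (F τ + G τ
      - starFun (F - G) τ) * hI
  have hBc : ∀ τ, starFun (F - G) τ = (c1 - I * c2) / 2 := by
    intro τ
    have e1 := hc1 τ
    have e2 := hc2 τ
    simp only [Pi.add_apply, Pi.sub_apply] at e1 e2 ⊢
    have hI : I * I = -1 := Complex.I_mul_I
    linear_combination (1 / 2 : ℂ) * e1 - (I / 2) * e2 - (1 / 2 : ℂ) * (F τ + G τ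
      - starFun (F - G) τ) * hI
  have hsum : f + g = 0 := by
    apply eq_zero_of_prim_const (f + g) ((c1 + I * c2) / 2)
    intro τ
    rw [map_add]
    exact hAc τ
  have hdiff : f - g = 0 := by
    apply eq_zero_of_prim_const (f - g) (conj ((c1 - I * c2) / 2))
    intro τ
    rw [map_sub]
    have := hBc (UpperHalfPlane.J • τ)
    rw [starFun_apply, J_smul_J_smul] at this
    rw [← this, Complex.conj_conj]
  have hf : f = 0 := by
    have : (2 : ℂ) • f = 0 := by
      have : (2 : ℂ) • f = (f + g) + (f - g) := by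
        rw [two_smul]; abel
      rw [this, hsum, hdiff, add_zero]
    exact (smul_eq_zero.mp this).resolve_left two_ne_zero
  have hg : g = 0 := by
    rw [hf, zero_add] at hsum
    exact hsum
  rw [hf, hg]
  rfl

end Fermat.Agent.S21
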