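import Mathlib

/-!
# S21 item 76c, part 1: a maximum modulus principle on modular curves

`CuspNice M H`: `H : ℍ → ℂ` is holomorphic and, for every `δ ∈ SL(2,ℤ)`, the function `H ∘ δ` is
`M`-periodic and bounded at `i∞`.

`CuspNice.eq_const`: if moreover the real part of `H` is invariant under a subgroup `Γ` of finite
index of `SL(2,ℤ)`, then `H` is constant.

The proof applies the maximum modulus principle (`Complex.eq_const_of_exists_le`) to the
vector-valued function `q ↦ (cuspFunction (exp ∘ H ∘ δₓ⁻¹) q)ₓ`, `x ∈ SL(2,ℤ) ⧸ Γ`, with values in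
the strictly convex space `EuclideanSpace ℂ (SL(2,ℤ) ⧸ Γ)`, whose norm is `SL(2,ℤ)`-invariant.
-/

set_option autoImplicit false

open UpperHalfPlane hiding I
open Complex Filter Topology Function
open scoped MatrixGroups Manifold Real

namespace Fermat.Agent.S21

local notation "𝕢" => Periodic.qParam

/-- `H` is holomorphic, and all its `SL(2,ℤ)`-translates are `M`-periodic and bounded at `i∞`. -/
structure CuspNice (M : ℕ) (H : ℍ → ℂ) : Prop where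
  mdiff : MDiff H
  periodic : ∀ (δ : SL(2, ℤ)) (τ : ℍ), H (δ • ((M : ℝ) +ᵥ τ)) = H (δ • τ)
  bdd : ∀ δ : SL(2, ℤ), IsBoundedAtImInfty (fun τ => H (δ • τ))

theorem mdiff_comp_smul {H : ℍ → ℂ} (hH : MDiff H) (δ : SL(2, ℤ)) :
    MDiff (fun τ => H (δ • τ)) := by
  have h1 : MDiff (fun τ : ℍ => (Matrix.SpecialLinearGroup.mapGL ℝ δ) • τ) :=
    UpperHalfPlane.mdifferentiable_smul (by simp)
  exact hH.comp h1

theorem mdiff_cexp_comp {H : ℍ → ℂ} (hH : MDiff H) : MDiff (fun τ => cexp (H τ)) := by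
  rw [UpperHalfPlane.mdifferentiable_iff] at hH ⊢
  exact hH.cexp

theorem isBoundedAtImInfty_cexp_comp {H : ℍ → ℂ} (hH : IsBoundedAtImInfty H) :
    IsBoundedAtImInfty (fun τ => cexp (H τ)) := by
  rw [UpperHalfPlane.isBoundedAtImInfty_iff] at hH ⊢
  obtain ⟨C, A, h⟩ := hH
  refine ⟨Real.exp C, A, fun z hz => ?_⟩
  rw [Complex.norm_exp]
  exact Real.exp_le_exp.mpr ((Complex.re_le_norm _).trans (h z hz))

section MaxMod

variable {M : ℕ} {H : ℍ → ℂ} (Γ : Subgroup SL(2, ℤ))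

/-- the translates `exp ∘ H ∘ δ⁻¹`, `δ` running over representatives of `SL(2,ℤ) ⧸ Γ` -/
noncomputable def expTranslate (H : ℍ → ℂ) (x : SL(2, ℤ) ⧸ Γ) : ℍ → ℂ :=
  fun τ => cexp (H ((Quotient.out x)⁻¹ • τ))

theorem re_translate_eq (hinv : ∀ γ ∈ Γ, ∀ τ : ℍ, (H (γ • τ)).re = (H τ).re)
    (δ : SL(2, ℤ)) (τ : ℍ) :
    (H ((Quotient.out (QuotientGroup.mk δ : SL(2, ℤ) ⧸ Γ))⁻¹ • τ)).re = (H (δ⁻¹ • τ)).re := by
  set s := Quotient.out (QuotientGroup.mk δ : SL(2, ℤ) ⧸ Γ) with hs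
  have h1 : (QuotientGroup.mk s : SL(2, ℤ) ⧸ Γ) = QuotientGroup.mk δ := Quotient.out_eq _
  have h2 : s⁻¹ * δ ∈ Γ := QuotientGroup.eq.mp h1
  have h3 : s⁻¹ • τ = (s⁻¹ * δ) • (δ⁻¹ • τ) := by
    rw [← mul_smul]
    congr 1
    group
  rw [h3, hinv _ h2]

theorem norm_expTranslate (x : SL(2, ℤ) ⧸ Γ) (τ : ℍ) :
    ‖expTranslate Γ H x τ‖ = Real.exp (H ((Quotient.out x)⁻¹ • τ)).re := by
  rw [expTranslate, Complex.norm_exp]

theorem sum_norm_expTranslate_smul [Fintype (SL(2, ℤ) ⧸ Γ)]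
    (hinv : ∀ γ ∈ Γ, ∀ τ : ℍ, (H (γ • τ)).re = (H τ).re) (g : SL(2, ℤ)) (τ : ℍ) :
    ∑ x : SL(2, ℤ) ⧸ Γ, ‖expTranslate Γ H x (g • τ)‖ ^ 2 =
      ∑ x : SL(2, ℤ) ⧸ Γ, ‖expTranslate Γ H x τ‖ ^ 2 := by
  have key : ∀ x : SL(2, ℤ) ⧸ Γ,
      ‖expTranslate Γ H x (g • τ)‖ = ‖expTranslate Γ H (g⁻¹ • x) τ‖ := by
    intro x
    induction x using QuotientGroup.induction_on with
    | H δ =>
      rw [norm_expTranslate, norm_expTranslate]
      have e1 : (g⁻¹ • (QuotientGroup.mk δ : SL(2, ℤ) ⧸ Γ)) = QuotientGroup.mk (g⁻¹ * δ) := rfl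
      rw [e1, re_translate_eq Γ hinv, re_translate_eq Γ hinv]
      congr 3
      rw [← mul_smul]
      congr 1
      group
  simp_rw [key]
  exact Equiv.sum_comp (MulAction.toPerm g⁻¹) (fun x => ‖expTranslate Γ H x τ‖ ^ 2)

theorem expTranslate_periodic (hH : CuspNice M H) (x : SL(2, ℤ) ⧸ Γ) :
    Periodic (expTranslate Γ H x ∘ ofComplex) ((M : ℝ) : ℂ) := by
  intro w
  by_cases hw : 0 < im w
  · have hw2 : 0 < im (w + ((M : ℝ) : ℂ)) := by simp [hw]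
    simp only [Function.comp_apply, ofComplex_apply_of_im_pos hw2,
      ofComplex_apply_of_im_pos hw, expTranslate]
    have := hH.periodic (Quotient.out x)⁻¹ ⟨w, hw⟩
    rw [← this]
    congr 3
    ext
    simp [add_comm]
  · have hw' : im w ≤ 0 := not_lt.mp hw
    have hw2 : im (w + ((M : ℝ) : ℂ)) ≤ 0 := by simpa using hw'
    simp only [Function.comp_apply]
    rw [ofComplex_apply_of_im_nonpos hw2, ofComplex_apply_of_im_nonpos hw']

theorem mdiff_expTranslate (hH : CuspNice M H) (x : SL(2, ℤ) ⧸ Γ) :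
    MDiff (expTranslate Γ H x) :=
  mdiff_cexp_comp (mdiff_comp_smul hH.mdiff _)

theorem bdd_expTranslate (hH : CuspNice M H) (x : SL(2, ℤ) ⧸ Γ) :
    IsBoundedAtImInfty (expTranslate Γ H x) :=
  isBoundedAtImInfty_cexp_comp (hH.bdd _)

/-- the vector of cusp functions of the translates -/
noncomputable def cuspVec (M : ℕ) (H : ℍ → ℂ) [Fintype (SL(2, ℤ) ⧸ Γ)] (q : ℂ) :
    EuclideanSpace ℂ (SL(2, ℤ) ⧸ Γ) :=
  WithLp.toLp 2 (fun x => cuspFunction M (expTranslate Γ H x) q)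

theorem cuspVec_apply [Fintype (SL(2, ℤ) ⧸ Γ)] (q : ℂ) (x : SL(2, ℤ) ⧸ Γ) :
    cuspVec Γ M H q x = cuspFunction M (expTranslate Γ H x) q := rfl

theorem differentiableOn_cuspVec [Fintype (SL(2, ℤ) ⧸ Γ)] (hM : 0 < M) (hH : CuspNice M H) :
    DifferentiableOn ℂ (cuspVec Γ M H) (Metric.ball 0 1) := by
  rw [differentiableOn_euclidean]
  intro x
  have hM' : (0 : ℝ) < M := by exact_mod_cast hM
  exact UpperHalfPlane.differentiableOn_cuspFunction_ball hM' (expTranslate_periodic Γ hH x)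
    (mdiff_expTranslate Γ hH x) (bdd_expTranslate Γ hH x)

theorem cuspVec_qParam [Fintype (SL(2, ℤ) ⧸ Γ)] (hM : 0 < M) (hH : CuspNice M H) (τ : ℍ)
    (x : SL(2, ℤ) ⧸ Γ) : cuspVec Γ M H (𝕢 M τ) x = expTranslate Γ H x τ := by
  have hM' : ((M : ℝ)) ≠ 0 := by exact_mod_cast hM.ne'
  rw [cuspVec_apply]
  exact UpperHalfPlane.eq_cuspFunction τ hM' (expTranslate_periodic Γ hH x)

theorem norm_cuspVec_qParam [Fintype (SL(2, ℤ) ⧸ Γ)] (hM : 0 < M) (hH : CuspNice M H) (τ : ℍ) :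
    ‖cuspVec Γ M H (𝕢 M τ)‖ = √(∑ x : SL(2, ℤ) ⧸ Γ, ‖expTranslate Γ H x τ‖ ^ 2) := by
  rw [EuclideanSpace.norm_eq]
  congr 1
  refine Finset.sum_congr rfl fun x _ => ?_
  rw [cuspVec_qParam Γ hM hH]

theorem norm_cuspVec_smul [Fintype (SL(2, ℤ) ⧸ Γ)] (hM : 0 < M) (hH : CuspNice M H)
    (hinv : ∀ γ ∈ Γ, ∀ τ : ℍ, (H (γ • τ)).re = (H τ).re) (g : SL(2, ℤ)) (τ : ℍ) :
    ‖cuspVec Γ M H (𝕢 M (g • τ : ℍ))‖ = ‖cuspVec Γ M H (𝕢 M τ)‖ := by
  rw [norm_cuspVec_qParam Γ hM hH, norm_cuspVec_qParam Γ hM hH,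
    sum_norm_expTranslate_smul Γ hinv]

/-- the vector of cusp functions is constant on the unit disc -/
theorem cuspVec_eqOn_const [Fintype (SL(2, ℤ) ⧸ Γ)] (hM : 0 < M) (hH : CuspNice M H)
    (hinv : ∀ γ ∈ Γ, ∀ τ : ℍ, (H (γ • τ)).re = (H τ).re) :
    Set.EqOn (cuspVec Γ M H) (Function.const ℂ (cuspVec Γ M H 0)) (Metric.ball 0 1) := by
  have hM' : (0 : ℝ) < M := by exact_mod_cast hM
  refine Complex.eq_const_of_exists_le (r := Real.exp (-π / M)) (differentiableOn_cuspVec Γ hM hH)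
    (Real.exp_nonneg _) ?_ (fun q hq => ?_)
  · rw [Real.exp_lt_one_iff]
    have := Real.pi_pos
    exact div_neg_of_neg_of_pos (by linarith) hM'
  · rcases eq_or_ne q 0 with rfl | hq'
    · exact ⟨0, by simpa using Real.exp_nonneg _, le_rfl⟩
    · have hqn : ‖q‖ < 1 := mem_ball_zero_iff.mp hq
      set τ : ℍ := ⟨Periodic.invQParam M q, Periodic.im_invQParam_pos_of_norm_lt_one hM' hqn hq'⟩
        with hτ
      have hqτ : 𝕢 M (τ : ℂ) = q := Periodic.qParam_right_inv hM'.ne' hq'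
      obtain ⟨g, hg⟩ := ModularGroup.exists_one_half_le_im_smul τ
      refine ⟨𝕢 M ((g • τ : ℍ) : ℂ), ?_, ?_⟩
      · rw [mem_closedBall_zero_iff, Periodic.norm_qParam]
        apply Real.exp_le_exp.mpr
        have h1 : (1 : ℝ) / 2 ≤ ((g • τ : ℍ) : ℂ).im := hg
        rw [div_le_div_iff_of_pos_right hM']
        have := Real.pi_pos
        nlinarith
      · rw [norm_cuspVec_smul Γ hM hH hinv g τ, hqτ]

theorem CuspNice.exp_eq_const [Γ.FiniteIndex] (hM : 0 < M) (hH : CuspNice M H)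
    (hinv : ∀ γ ∈ Γ, ∀ τ : ℍ, (H (γ • τ)).re = (H τ).re) :
    ∃ c : ℂ, ∀ τ : ℍ, cexp (H τ) = c := by
  classical
  let _inst : Fintype (SL(2, ℤ) ⧸ Γ) := Fintype.ofFinite _
  have hM' : (0 : ℝ) < M := by exact_mod_cast hM
  have hconst := cuspVec_eqOn_const Γ hM hH hinv
  set x₀ : SL(2, ℤ) ⧸ Γ := QuotientGroup.mk 1 with hx₀
  set s := Quotient.out x₀ with hs
  have hs' : s⁻¹ ∈ Γ := by
    have h1 : (QuotientGroup.mk s : SL(2, ℤ) ⧸ Γ) = QuotientGroup.mk 1 := Quotient.out_eq _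
    have h2 : s⁻¹ * 1 ∈ Γ := QuotientGroup.eq.mp h1
    simpa using h2
  refine ⟨cuspVec Γ M H 0 x₀, fun τ => ?_⟩
  have hq : 𝕢 M ((s • τ : ℍ) : ℂ) ∈ Metric.ball (0 : ℂ) 1 := by
    rw [mem_ball_zero_iff]
    exact Periodic.norm_qParam_lt_one hM' (s • τ).im_pos
  have h1 := congr_fun (congrArg (fun v : EuclideanSpace ℂ (SL(2, ℤ) ⧸ Γ) => (v : _ → ℂ))
    (hconst hq)) x₀
  simp only [Function.const_apply] at h1
  rw [cuspVec_qParam Γ hM hH, expTranslate] at h1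
  rw [← h1, ← hs, inv_smul_smul]

/-- **Maximum modulus principle**: a `CuspNice` function whose real part is invariant under a
subgroup of finite index is constant. -/
theorem CuspNice.eq_const [Γ.FiniteIndex] (hM : 0 < M) (hH : CuspNice M H)
    (hinv : ∀ γ ∈ Γ, ∀ τ : ℍ, (H (γ • τ)).re = (H τ).re) :
    ∃ c : ℂ, ∀ τ : ℍ, H τ = c := by
  obtain ⟨c, hc⟩ := hH.exp_eq_const Γ hM hinv
  have hdiff : DifferentiableOn ℂ (H ∘ ofComplex) {z | 0 < z.im} :=
    UpperHalfPlane.mdifferentiable_iff.mp hH.mdiff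
  have hopen : IsOpen {z : ℂ | 0 < z.im} := isOpen_upperHalfPlaneSet
  have hderiv : Set.EqOn (deriv (H ∘ ofComplex)) 0 {z | 0 < z.im} := by
    intro z hz
    have hd : DifferentiableAt ℂ (H ∘ ofComplex) z := hdiff.differentiableAt (hopen.mem_nhds hz)
    have h1 : HasDerivAt (fun w => cexp ((H ∘ ofComplex) w))
        (cexp ((H ∘ ofComplex) z) * deriv (H ∘ ofComplex) z) z := hd.hasDerivAt.cexp
    have h2 : (fun w => cexp ((H ∘ ofComplex) w)) =ᶠ[𝓝 z] fun _ => c := by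
      filter_upwards [hopen.mem_nhds hz] with w hw
      simp only [Function.comp_apply]
      exact hc _
    have h3 := (h1.congr_of_eventuallyEq h2.symm).unique (hasDerivAt_const z c)
    simpa [Complex.exp_ne_zero] using h3
  refine ⟨H UpperHalfPlane.I, fun τ => ?_⟩
  have hconv : IsPreconnected {z : ℂ | 0 < z.im} :=
    (convex_halfSpace_im_gt 0).isPreconnected
  have := hopen.is_const_of_deriv_eq_zero hconv hdiff hderiv τ.2 UpperHalfPlane.I.2
  simp only [Function.comp_apply, ofComplex_apply] at this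
  exact this

end MaxMod

end Fermat.Agent.S21
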