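import Fermat.Agent.S21.InjMaxMod
import Fermat.Agent.S21.Primitive

/-!
# S21 item 76c, part 2: the anti-holomorphic involution `F ↦ F^c`, `F^c(τ) = conj (F (-conj τ))`

* `starFun F`, `CuspNice.starFun`;
* `J_smul_smul`: `J • (δ • τ) = jConjSL δ • (J • τ)`;
* closure properties of `CuspNice`;
* `exists_cuspNice_prim`: the primitives of weight `2` cusp forms are `CuspNice` for a
  uniform period.
-/

set_option autoImplicit false

open UpperHalfPlane hiding I
open Complex Filter Topology Function Matrix.SpecialLinearGroup CongruenceSubgroup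
open scoped MatrixGroups Manifold Real ComplexConjugate ModularForm
open Derivative
open Fermat.Agent.S22

namespace Fermat.Agent.S21

/-! ### closure properties of `CuspNice` -/

theorem CuspNice.add {M : ℕ} {H₁ H₂ : ℍ → ℂ} (h₁ : CuspNice M H₁) (h₂ : CuspNice M H₂) :
    CuspNice M (H₁ + H₂) where
  mdiff := h₁.mdiff.add h₂.mdiff
  periodic δ τ := by
    simp only [Pi.add_apply]
    rw [h₁.periodic, h₂.periodic]
  bdd δ := (h₁.bdd δ).add (h₂.bdd δ)

theorem CuspNice.const_mul {M : ℕ} {H : ℍ → ℂ} (h : CuspNice M H) (c : ℂ) :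
    CuspNice M (fun τ => c * H τ) where
  mdiff := h.mdiff.const_smul c
  periodic δ τ := by
    show c * H _ = c * H _
    rw [h.periodic]
  bdd δ := (h.bdd δ).const_mul_left c

theorem CuspNice.neg {M : ℕ} {H : ℍ → ℂ} (h : CuspNice M H) : CuspNice M (-H) := by
  have := h.const_mul (-1)
  have e : (fun τ => (-1 : ℂ) * H τ) = -H := by
    funext τ
    simp
  rwa [e] at this

theorem CuspNice.sub {M : ℕ} {H₁ H₂ : ℍ → ℂ} (h₁ : CuspNice M H₁) (h₂ : CuspNice M H₂) :
    CuspNice M (H₁ - H₂) := by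
  rw [sub_eq_add_neg]
  exact h₁.add h₂.neg

/-! ### the involution -/

/-- `F^c(τ) = conj (F (-conj τ))` -/
noncomputable def starFun (F : ℍ → ℂ) : ℍ → ℂ := fun τ => conj (F (UpperHalfPlane.J • τ))

theorem starFun_apply (F : ℍ → ℂ) (τ : ℍ) : starFun F τ = conj (F (UpperHalfPlane.J • τ)) := rfl

theorem J_smul_J_smul (τ : ℍ) : UpperHalfPlane.J • (UpperHalfPlane.J • τ) = τ := by
  rw [← mul_smul, ← sq, UpperHalfPlane.J_sq, one_smul]

theorem im_J_smul (τ : ℍ) : (UpperHalfPlane.J • τ).im = τ.im := by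
  rw [← UpperHalfPlane.coe_im, UpperHalfPlane.coe_J_smul]
  simp

theorem J_mul_mapGL (δ : SL(2, ℤ)) :
    UpperHalfPlane.J * mapGL ℝ δ = mapGL ℝ (ModularCurve.Period.jConjSL δ) * UpperHalfPlane.J := by
  ext i j
  fin_cases i <;> fin_cases j <;>
    simp [Matrix.mul_apply, Fin.sum_univ_two, ModularCurve.Period.jConjMat]

theorem J_smul_smul (δ : SL(2, ℤ)) (τ : ℍ) :
    UpperHalfPlane.J • (δ • τ) = ModularCurve.Period.jConjSL δ • (UpperHalfPlane.J • τ) := by
  have h1 : δ • τ = mapGL ℝ δ • τ := rfl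
  have h2 : ModularCurve.Period.jConjSL δ • (UpperHalfPlane.J • τ)
      = mapGL ℝ (ModularCurve.Period.jConjSL δ) • (UpperHalfPlane.J • τ) := rfl
  rw [h1, h2, ← mul_smul, ← mul_smul, J_mul_mapGL]

theorem J_smul_vadd (x : ℝ) (τ : ℍ) :
    UpperHalfPlane.J • (x +ᵥ τ) = (-x) +ᵥ (UpperHalfPlane.J • τ) := by
  apply UpperHalfPlane.ext
  rw [UpperHalfPlane.coe_J_smul, UpperHalfPlane.coe_vadd, UpperHalfPlane.coe_vadd,
    UpperHalfPlane.coe_J_smul]
  simp
  ring

theorem starFun_starFun (F : ℍ → ℂ) : starFun (starFun F) = F := by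
  funext τ
  simp [starFun, J_smul_J_smul]

theorem starFun_add (F G : ℍ → ℂ) : starFun (F + G) = starFun F + starFun G := by
  funext τ
  simp [starFun]

theorem starFun_sub (F G : ℍ → ℂ) : starFun (F - G) = starFun F - starFun G := by
  funext τ
  simp [starFun]

theorem mdiff_starFun {F : ℍ → ℂ} (hF : MDiff F) : MDiff (starFun F) := by
  rw [UpperHalfPlane.mdifferentiable_iff] at hF ⊢
  intro z hz
  have hz' : 0 < (-(conj z)).im := by simpa using hz
  -- `g w = (F ∘ ofComplex) (-w)` is differentiable at `conj z`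
  have hg : DifferentiableAt ℂ (fun w => (F ∘ ofComplex) (-w)) (conj z) := by
    have h1 : DifferentiableAt ℂ (F ∘ ofComplex) (-(conj z)) :=
      hF.differentiableAt (UpperHalfPlane.isOpen_upperHalfPlaneSet.mem_nhds hz')
    exact h1.comp (conj z) differentiable_neg.differentiableAt
  have h2 := hg.conj_conj
  rw [Complex.conj_conj] at h2
  refine (h2.congr_of_eventuallyEq ?_).differentiableWithinAt
  filter_upwards [UpperHalfPlane.isOpen_upperHalfPlaneSet.mem_nhds hz] with w hw
  have hw' : 0 < (-(conj w)).im := by simpa using hw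
  simp only [Function.comp_apply, starFun]
  congr 2
  apply UpperHalfPlane.ext
  rw [UpperHalfPlane.coe_J_smul, ofComplex_apply_of_im_pos hw, ofComplex_apply_of_im_pos hw']

theorem CuspNice.starFun {M : ℕ} {H : ℍ → ℂ} (h : CuspNice M H) : CuspNice M (starFun H) where
  mdiff := mdiff_starFun h.mdiff
  periodic δ τ := by
    simp only [Fermat.Agent.S21.starFun]
    rw [J_smul_smul, J_smul_smul, J_smul_vadd]
    congr 1
    have := h.periodic (ModularCurve.Period.jConjSL δ) ((-(M : ℝ)) +ᵥ (UpperHalfPlane.J • τ))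
    rw [← this]
    congr 2
    apply UpperHalfPlane.ext
    simp
  bdd δ := by
    have := h.bdd (ModularCurve.Period.jConjSL δ)
    rw [UpperHalfPlane.isBoundedAtImInfty_iff] at this ⊢
    obtain ⟨C, A, hCA⟩ := this
    refine ⟨C, A, fun z hz => ?_⟩
    simp only [Fermat.Agent.S21.starFun]
    rw [J_smul_smul, RCLike.norm_conj]
    exact hCA _ (by rw [im_J_smul]; exact hz)

end Fermat.Agent.S21
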